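/-
The Jacobian statements at a prime exactly dividing the level, in the form used by the trace
arguments.
-/
import Fermat.Agent.BAD.Modular.Final
import Fermat.Agent.TraceFn.BadPrimeInputs

set_option autoImplicit false

namespace Fermat.Agent.BAD.Wiring

open Fermat.Agent.TraceFn

theorem inertiaSubOneSq (N' q p : ℕ) [NeZero N'] [NeZero q] (hq : q.Prime) (hp : p.Prime)
    (hqp : q ≠ p) (hqN : ¬ q ∣ N') : InertiaSubOneSq N' q p := by
  rintro A hA σ hσ x ⟨n, hn⟩
  exact Modular.inertia_jZero hq hqN hA hσ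
    (fun h => hqp ((Nat.prime_dvd_prime_iff_eq hq hp).mp (hq.dvd_of_dvd_pow h))) hn

theorem frobeniusSqOnPushTrivial (N' q p : ℕ) [NeZero N'] [NeZero q] (hq : q.Prime) (hp : p.Prime)
    (hqp : q ≠ p) (hqN : ¬ q ∣ N') : FrobeniusSqOnPushTrivial N' q p := by
  rintro A hA σ hσ h₁ h₂ z ⟨n, hn⟩ hz₁ hz₂
  exact Modular.frobenius_jZero hq hqN hA hσ
    (fun h => hqp ((Nat.prime_dvd_prime_iff_eq hq hp).mp (hq.dvd_of_dvd_pow h))) hn hz₁ hz₂

end Fermat.Agent.BAD.Wiring
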